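/-
Programme DS (S48), generic half: middle-layer vocabulary for the assembly of D–S §8
(matrix-valued Galois representations attached to an eigen-system `(a_p, e_p)` of algebraic
integers, away from a level).
-/
import Mathlib
import Fermat.Prelude.Def_GaloisRep_Residual
import Fermat.Agent.Lib.FrobeniusExists

set_option autoImplicit false

namespace Fermat.Agent.DS.Mid

local notation "Γℚ" => (AlgebraicClosure ℚ ≃ₐ[ℚ] AlgebraicClosure ℚ)
local notation "ℤbar" => integralClosure ℤ ℂ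

/-- `σ` is a Frobenius element at `p` (with respect to some place of `ℚ̄` over `p`). -/
def IsFrobAt (p : ℕ) (σ : Γℚ) : Prop :=
  ∃ A : ValuationSubring (AlgebraicClosure ℚ), A.LiesOverPrime p ∧ A.IsFrobeniusAt σ p

/-- `ρ` is unramified at `p`: trivial on the inertia group of every place over `p`. -/
def UnramAt {M : Type*} [MulOneClass M] (ρ : Γℚ →* M) (p : ℕ) : Prop :=
  ∀ A : ValuationSubring (AlgebraicClosure ℚ), A.LiesOverPrime p →
    ∀ σ ∈ A.inertiaSubgroupIn ℚ, ρ σ = 1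

/-- `r : G_ℚ → GL₂(k)` is a mod-`φ` representation attached to the eigen-system `(a, e)` away
from the primes dividing `S`: finite level, unramified outside `S`, and Frobenius elements at
`p ∤ S` have trace `φ(a_p)` and determinant `φ(e_p)`. -/
structure IsModRep {k : Type} [Field k] (φ : ℤbar →+* k) (a e : ℕ → ℤbar) (S : ℕ)
    (r : Γℚ →* GL (Fin 2) k) : Prop where
  finiteLevel : GaloisFactorsThroughFiniteLevel r
  unram : ∀ p : ℕ, p.Prime → ¬ p ∣ S → UnramAt r p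
  frob : ∀ p : ℕ, p.Prime → ¬ p ∣ S → ∀ σ : Γℚ, IsFrobAt p σ →
    ((r σ : GL (Fin 2) k) : Matrix (Fin 2) (Fin 2) k).trace = φ (a p) ∧
    ((r σ : GL (Fin 2) k) : Matrix (Fin 2) (Fin 2) k).det = φ (e p)

/-- `ρ : G_ℚ → GL₂(ℂ)` is attached to the eigen-system `(a, e)` away from `S`. -/
structure IsCxRep (a e : ℕ → ℤbar) (S : ℕ) (ρ : Γℚ →* GL (Fin 2) ℂ) : Prop where
  finiteLevel : GaloisFactorsThroughFiniteLevel ρ
  unram : ∀ p : ℕ, p.Prime → ¬ p ∣ S → UnramAt ρ p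
  frob : ∀ p : ℕ, p.Prime → ¬ p ∣ S → ∀ σ : Γℚ, IsFrobAt p σ →
    ((ρ σ : GL (Fin 2) ℂ) : Matrix (Fin 2) (Fin 2) ℂ).trace = (a p : ℂ) ∧
    ((ρ σ : GL (Fin 2) ℂ) : Matrix (Fin 2) (Fin 2) ℂ).det = (e p : ℂ)

/-- A representation which factors through another one (same or bigger kernel, pointwise). -/
def FactorsThrough {M M' : Type*} [MulOneClass M] [MulOneClass M'] (ρ : Γℚ →* M)
    (ρ' : Γℚ →* M') : Prop :=
  ∀ σ τ : Γℚ, ρ σ = ρ τ → ρ' σ = ρ' τ

theorem FactorsThrough.finiteLevel {M M' : Type} [MulOneClass M] [MulOneClass M']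
    {ρ : Γℚ →* M} {ρ' : Γℚ →* M'} (h : FactorsThrough ρ ρ')
    (hρ : GaloisFactorsThroughFiniteLevel ρ) : GaloisFactorsThroughFiniteLevel ρ' := by
  obtain ⟨L, hL, hker⟩ := hρ
  refine ⟨L, hL, fun σ hσ => ?_⟩
  have h1 : ρ σ = ρ 1 := by rw [hker σ hσ, map_one]
  rw [h σ 1 h1, map_one]

theorem FactorsThrough.unramAt {M M' : Type*} [MulOneClass M] [MulOneClass M']
    {ρ : Γℚ →* M} {ρ' : Γℚ →* M'} (h : FactorsThrough ρ ρ') {p : ℕ}
    (hρ : UnramAt ρ p) : UnramAt ρ' p := by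
  intro A hA σ hσ
  have h1 : ρ σ = ρ 1 := by rw [hρ A hA σ hσ, map_one]
  rw [h σ 1 h1, map_one]

/-- Every prime has a Frobenius element. -/
theorem exists_isFrobAt (p : ℕ) (hp : p.Prime) : ∃ σ : Γℚ, IsFrobAt p σ := by
  obtain ⟨A, σ, hA, hσ⟩ := Fermat.Agent.Lib.exists_isFrobeniusAt p hp
  exact ⟨σ, A, hA, hσ⟩

end Fermat.Agent.DS.Mid
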