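/-
Programme DS (S48), generic half, step (P4) of the assembly: construction of the complex
representation attached to the eigen-system away from `N ℓ`, from one mod-`ℓ` representation
with small image.
-/
import Mathlib
import Fermat.Agent.DS.Mid.Defs
import Fermat.Agent.DS.Lift.YSet
import Fermat.Agent.DS.Lift.Final

set_option autoImplicit false

namespace Fermat.Agent.DS.Mid.Construct

open Fermat.Agent.DS.Mid Fermat.Agent.DS.Lift

local notation "Γℚ" => (AlgebraicClosure ℚ ≃ₐ[ℚ] AlgebraicClosure ℚ)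
local notation "ℤbar" => integralClosure ℤ ℂ

/-- **(P4) Construction.** -/
theorem exists_cxRep (a e : ℕ → ℤbar) (N D ℓ : ℕ) [NeZero D] (hℓ : ℓ.Prime)
    (hY : ∀ p : ℕ, p.Prime → ¬ p ∣ N → (a p, e p) ∈ YSet.Yset D)
    {k : Type} [Field k] [CharP k ℓ] (φ : ℤbar →+* k)
    (hinj : ∀ y ∈ YSet.Yset D, ∀ y' ∈ YSet.Yset D, φ y.1 = φ y'.1 → φ y.2 = φ y'.2 → y = y')
    (r : Γℚ →* GL (Fin 2) k) (hr : IsModRep φ a e (N * ℓ) r) [Finite r.range]
    (hcard : Nat.card r.range ∣ D) (hDℓ : D ∣ ℓ - 1) :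
    ∃ ρ : Γℚ →* GL (Fin 2) ℂ, IsCxRep a e (N * ℓ) ρ ∧ (∀ σ, ρ σ = 1 ↔ r σ = 1) ∧
      Finite ρ.range := by
  classical
  obtain ⟨R, hRker, hRcompat⟩ :=
    Final.primeToEllLift ℓ hℓ φ (dvd_trans hcard hDℓ) r.range.subtype
  let ρ : Γℚ →* GL (Fin 2) ℂ := R.comp r.rangeRestrict
  have hker : ∀ σ, ρ σ = 1 ↔ r σ = 1 := by
    intro σ
    change R (r.rangeRestrict σ) = 1 ↔ _
    rw [hRker]
    rfl
  have hfac : FactorsThrough r ρ := by
    intro σ τ h
    have : r.rangeRestrict σ = r.rangeRestrict τ := Subtype.ext h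
    change R (r.rangeRestrict σ) = R (r.rangeRestrict τ)
    rw [this]
  have hpowG : ∀ g : r.range, g ^ D = 1 := by
    intro g
    obtain ⟨c, hc⟩ := hcard
    rw [hc, pow_mul, pow_card_eq_one', one_pow]
  refine ⟨ρ, ⟨hfac.finiteLevel hr.finiteLevel, fun p hp hpS => hfac.unramAt (hr.unram p hp hpS),
    ?_⟩, hker, ?_⟩
  · intro p hp hpS σ hσ
    obtain ⟨htr, hdet⟩ := hr.frob p hp hpS σ hσ
    obtain ⟨t, d, htR, hdR, htr', hdr'⟩ := hRcompat (r.rangeRestrict σ)
    have hpN : ¬ p ∣ N := fun h => hpS (dvd_mul_of_dvd_left h ℓ)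
    -- `ρ σ` has order dividing `D`
    have hpow : ((ρ σ : GL (Fin 2) ℂ) : Matrix (Fin 2) (Fin 2) ℂ) ^ D = 1 := by
      have h1 : (ρ σ) ^ D = 1 := by
        change (R (r.rangeRestrict σ)) ^ D = 1
        rw [← map_pow, hpowG, map_one]
      have := congrArg (fun u : GL (Fin 2) ℂ => (u : Matrix (Fin 2) (Fin 2) ℂ)) h1
      simpa using this
    obtain ⟨y, hyY, hy1, hy2⟩ := YSet.exists_mem_Yset_complex D _ hpow
    have ht : t = y.1 := by
      apply Subtype.ext
      rw [← hy1]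
      exact htR.symm
    have hd : d = y.2 := by
      apply Subtype.ext
      rw [← hy2]
      exact hdR.symm
    have hsub : ((r.range.subtype (r.rangeRestrict σ) : GL (Fin 2) k) :
        Matrix (Fin 2) (Fin 2) k) = ((r σ : GL (Fin 2) k) : Matrix (Fin 2) (Fin 2) k) := rfl
    rw [hsub] at htr' hdr'
    have hy : (a p, e p) = y := by
      apply hinj _ (hY p hp hpN) _ hyY
      · change φ (a p) = φ y.1
        rw [← htr, htr', ht]
      · change φ (e p) = φ y.2
        rw [← hdet, hdr', hd]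
    constructor
    · change ((R (r.rangeRestrict σ) : GL (Fin 2) ℂ) : Matrix (Fin 2) (Fin 2) ℂ).trace = _
      rw [htR, ht, ← hy]
    · change ((R (r.rangeRestrict σ) : GL (Fin 2) ℂ) : Matrix (Fin 2) (Fin 2) ℂ).det = _
      rw [hdR, hd, ← hy]
  · have hle : ρ.range ≤ R.range := by
      rintro _ ⟨σ, rfl⟩
      exact ⟨r.rangeRestrict σ, rfl⟩
    have : Finite R.range := by
      have : Finite (Set.range R) := (Set.finite_range R).to_subtype
      exact this
    exact Finite.of_injective (Subgroup.inclusion hle) (Subgroup.inclusion_injective hle)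

end Fermat.Agent.DS.Mid.Construct
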