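/-
Programme DS (S48), generic half, step (P3) of the assembly: if for infinitely many `ℓ` there
is a mod-`ℓ` representation attached to the eigen-system `(a, e)` all of whose elements have
order dividing `D`, then `(a_p, e_p)` lies in the finite set `Y_D` for every `p ∤ N`.
-/
import Mathlib
import Fermat.Agent.DS.Mid.Defs
import Fermat.Agent.DS.Lift.YSet

set_option autoImplicit false

namespace Fermat.Agent.DS.Mid.Pigeonhole

open Fermat.Agent.DS.Mid Fermat.Agent.DS.Lift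

local notation "Γℚ" => (AlgebraicClosure ℚ ≃ₐ[ℚ] AlgebraicClosure ℚ)
local notation "ℤbar" => integralClosure ℤ ℂ

/-- **(P3) Pigeonhole.** -/
theorem mem_Yset_of_modReps (a e : ℕ → ℤbar) (N D : ℕ) [NeZero D] (S : Set ℕ) (hS : S.Infinite)
    (h : ∀ ℓ ∈ S, ℓ.Prime ∧ ∃ (k : Type) (_ : Field k) (_ : CharP k ℓ) (φ : ℤbar →+* k)
      (r : Γℚ →* GL (Fin 2) k), IsModRep φ a e (N * ℓ) r ∧ ∀ σ, (r σ) ^ D = 1)
    (p : ℕ) (hp : p.Prime) (hpN : ¬ p ∣ N) : (a p, e p) ∈ YSet.Yset D := by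
  classical
  obtain ⟨σ, hσ⟩ := exists_isFrobAt p hp
  -- discard the finitely many bad `ℓ`
  set S' : Set ℕ := S \ ((Nat.divisors (p * D) : Finset ℕ) : Set ℕ) with hS'
  have hS'inf : S'.Infinite := hS.diff (Finset.finite_toSet _)
  refine Pigeon.mem_of_infinite_congr (YSet.Yset D) (a p, e p) S' hS'inf ?_
  intro ℓ hℓ
  obtain ⟨hℓS, hℓbad⟩ := hℓ
  obtain ⟨hℓprime, k, hk1, hk2, φ, r, hr, hrD⟩ := h ℓ hℓS
  have hpD0 : p * D ≠ 0 := Nat.mul_ne_zero hp.ne_zero (NeZero.ne D)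
  have hℓndvd : ¬ ℓ ∣ p * D := by
    intro hdvd
    apply hℓbad
    simp [Nat.mem_divisors, hdvd, hpD0]
  have hℓp : ¬ ℓ ∣ p := fun hh => hℓndvd (dvd_mul_of_dvd_left hh D)
  have hℓD : ¬ ℓ ∣ D := fun hh => hℓndvd (dvd_mul_of_dvd_right hh p)
  have hpNℓ : ¬ p ∣ N * ℓ := by
    intro hdvd
    rcases (Nat.Prime.dvd_mul hp).mp hdvd with h1 | h1
    · exact hpN h1
    · rw [Nat.prime_dvd_prime_iff_eq hp hℓprime] at h1
      exact hℓp (h1 ▸ dvd_refl _)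
  have hDk : ((D : ℕ) : k) ≠ 0 := by
    rw [Ne, CharP.cast_eq_zero_iff k ℓ]
    exact hℓD
  obtain ⟨htr, hdet⟩ := hr.frob p hp hpNℓ σ hσ
  have hpow : ((r σ : GL (Fin 2) k) : Matrix (Fin 2) (Fin 2) k) ^ D = 1 := by
    have := congrArg (fun u : GL (Fin 2) k => (u : Matrix (Fin 2) (Fin 2) k)) (hrD σ)
    simpa using this
  obtain ⟨y, hyY, hy1, hy2⟩ := YSet.exists_mem_Yset_of_pow_eq_one φ D hDk _ hpow
  refine ⟨k, hk1, hk2, φ, y, hyY, ?_, ?_⟩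
  · rw [← htr, hy1]
  · rw [← hdet, hy2]

end Fermat.Agent.DS.Mid.Pigeonhole
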