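/-
Programme DS (S48), generic half, step (P1) of the assembly (helper99): Dirichlet-density lemmas.

* `tendsto_log_inv`   : `log (1 / (s - 1)) → ∞` as `s → 1⁺`;
* `primeSum_le_add_card_of_subset` : monotonicity of `primeSum` up to a finite set of primes;
* `le_of_lower_of_upper` : if the primes of `X` lie in `T ∪ X'` (`T` finite), `X` has lower density
  `≥ c` and `X'` has upper density `≤ η`, then `c ≤ η`.
-/
import Mathlib
import Fermat.Agent.DS.Iface
import Fermat.Agent.DS.Irred.Density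

set_option autoImplicit false

open Filter Topology

namespace Fermat.Agent.DS.Mid.Bound99Density

open Fermat.Agent.DS.Iface Fermat.Agent.DS.Irred.Density

/-- `log (1 / (s - 1)) → ∞` as `s → 1⁺`. -/
theorem tendsto_log_inv :
    Tendsto (fun s : ℝ => Real.log (1 / (s - 1))) (𝓝[>] (1 : ℝ)) atTop := by
  have h0 : Tendsto (fun s : ℝ => s - 1) (𝓝 (1 : ℝ)) (𝓝 (0 : ℝ)) := by
    have : Continuous fun s : ℝ => s - 1 := continuous_id.sub continuous_const
    simpa using this.tendsto 1
  have h1 : Tendsto (fun s : ℝ => s - 1) (𝓝[>] (1 : ℝ)) (𝓝[>] (0 : ℝ)) := by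
    refine tendsto_nhdsWithin_of_tendsto_nhds_of_eventually_within _
      (h0.mono_left nhdsWithin_le_nhds) ?_
    filter_upwards [self_mem_nhdsWithin] with s hs
    exact sub_pos.mpr (Set.mem_Ioi.mp hs)
  have h2 : Tendsto (fun s : ℝ => (s - 1)⁻¹) (𝓝[>] (1 : ℝ)) atTop :=
    tendsto_inv_nhdsGT_zero.comp h1
  have h3 := Real.tendsto_log_atTop.comp h2
  refine h3.congr fun s => ?_
  simp [one_div]

/-- Monotonicity of `primeSum` in the set of PRIMES. -/
theorem primeSum_le_of_subset {s : ℝ} (hs : 1 < s) {X X' : Set ℕ}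
    (h : ∀ p : ℕ, p.Prime → p ∈ X → p ∈ X') : primeSum X s ≤ primeSum X' s := by
  rw [primeSum_eq, primeSum_eq]
  refine (indicator_summable hs _).tsum_le_tsum (fun n => ?_) (indicator_summable hs _)
  refine Set.indicator_le_indicator_of_subset ?_ (fun p => gw_nonneg s p) n
  intro p hp
  exact ⟨hp.1, h p hp.1 hp.2⟩

/-- Monotonicity of `primeSum` up to a finite set of primes. -/
theorem primeSum_le_add_card_of_subset {s : ℝ} (hs : 1 < s) {X X' : Set ℕ} (T : Finset ℕ)
    (h : ∀ p : ℕ, p.Prime → p ∈ X → p ∈ T ∨ p ∈ X') :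
    primeSum X s ≤ primeSum X' s + T.card := by
  refine (primeSum_le_add_card hs X T).trans ?_
  have h1 : (∑' n : ℕ, Set.indicator {p : ℕ | p.Prime ∧ p ∉ T ∧ p ∈ X} (gw s) n) ≤
      primeSum X' s := by
    rw [primeSum_eq]
    refine (indicator_summable hs _).tsum_le_tsum (fun n => ?_) (indicator_summable hs _)
    refine Set.indicator_le_indicator_of_subset ?_ (fun p => gw_nonneg s p) n
    intro p hp
    exact ⟨hp.1, (h p hp.1 hp.2.2).resolve_left hp.2.1⟩
  linarith

/-- **Lower density ≤ upper density**, up to a finite set of primes. -/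
theorem le_of_lower_of_upper {X X' : Set ℕ} {c η : ℝ} (T : Finset ℕ)
    (hsub : ∀ p : ℕ, p.Prime → p ∈ X → p ∈ T ∨ p ∈ X')
    (hl : LowerDensityGE X c) (hu : UpperDensityLE X' η) : c ≤ η := by
  by_contra hlt
  rw [not_le] at hlt
  set δ : ℝ := (c - η) / 4 with hδ
  have hδpos : 0 < δ := by rw [hδ]; linarith
  have h1 := hl δ hδpos
  have h2 := hu δ hδpos
  have h3 : ∀ᶠ s in 𝓝[>] (1 : ℝ), 1 < s := self_mem_nhdsWithin
  have h4 : ∀ᶠ s in 𝓝[>] (1 : ℝ), (T.card : ℝ) / (2 * δ) < Real.log (1 / (s - 1)) :=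
    tendsto_log_inv.eventually_gt_atTop _
  obtain ⟨s, hs1, hs2, hs3, hs4⟩ := (h1.and (h2.and (h3.and h4))).exists
  have h5 := primeSum_le_add_card_of_subset hs3 T hsub
  have h6 : 2 * δ * Real.log (1 / (s - 1)) ≤ T.card := by
    have e : c - δ - (η + δ) = 2 * δ := by rw [hδ]; ring
    nlinarith
  rw [div_lt_iff₀ (by positivity)] at hs4
  linarith

/-- A set of primes of positive lower density is not contained in a finite set. -/
theorem exists_prime_notMem_of_lower {X : Set ℕ} {c : ℝ} (hc : 0 < c) (hl : LowerDensityGE X c)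
    (T : Finset ℕ) : ∃ p : ℕ, p.Prime ∧ p ∈ X ∧ p ∉ T := by
  by_contra hno
  have hno : ∀ p : ℕ, p.Prime → p ∈ X → p ∈ T := by
    intro p hp hpX
    by_contra hpT
    exact hno ⟨p, hp, hpX, hpT⟩
  have hu : UpperDensityLE (∅ : Set ℕ) 0 := by
    intro δ hδ
    filter_upwards [self_mem_nhdsWithin, tendsto_log_inv.eventually_ge_atTop 0] with s hs hlog
    have : primeSum (∅ : Set ℕ) s = 0 := by
      rw [primeSum_eq]
      have : {p : ℕ | p.Prime ∧ p ∈ (∅ : Set ℕ)} = ∅ := by ext; simp
      rw [this]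
      simp
    rw [this]
    positivity
  have := le_of_lower_of_upper (X' := ∅) T
    (fun p hp hpX => Or.inl (hno p hp hpX)) hl hu
  linarith

end Fermat.Agent.DS.Mid.Bound99Density
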