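/-
Programme DS (S48), generic half, steps (P1)+(P2) of the assembly of Deligne–Serre §8 (helper99),
in the matrix vocabulary of `DS/Mid/Defs`.

* `isModRep_of_charpoly_eq` : `IsModRep` only depends on the characteristic polynomials and the
  kernel; `exists_semisimple` : every `IsModRep` can be replaced by a semisimple one;
* `fewCharpolys` (**D–S Lemma 8.2**) : if the `a_p` take their values in a finite set `Ya` off a
  set of primes of upper density `≤ η`, and the `e_p` in a finite set `Ye`, then for EVERY mod-`φ`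
  representation `r` attached to `(a, e)` away from `N ℓ` the group `r(G_ℚ)` has a subset of
  proportion `≥ 1 - η` on which the characteristic polynomial takes at most `2 |Ya| |Ye|` values
  (symmetric Chebotarev applied to the complement of `H ∪ H⁻¹`);
* `exists_int_trace` : if the `φ (a p)`, `φ (e p)` are in the prime field, so are all traces;
* `exists_card_bound` (**D–S (8.3)**) : a bound `A` for `|r(G_ℚ)|`, independent of `ℓ`, `k`, `φ`, `r`
  (`r` semisimple with traces in the prime field), by Prop. 7.2 (`GL2.Main.card_le_of_fewCharpolys`);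
  `exists_exponent` : a common exponent `D` for all these images.
-/
import Mathlib
import Fermat.Agent.DS.Mid.Defs
import Fermat.Agent.DS.IfaceSym
import Fermat.Agent.DS.GL2.Main
import Fermat.Agent.DS.GL2.SS
import Fermat.Agent.DS.Asm.FiniteRange
import Fermat.Agent.DS.Mid.Bound99Density

set_option autoImplicit false

open Polynomial

namespace Fermat.Agent.DS.Mid.Bound99

open Fermat.Agent.DS.Mid Fermat.Agent.DS.Iface Fermat.Agent.DS.IfaceSym
open Fermat.Agent.DS.GL2.Main Fermat.Agent.DS.GL2.Transvections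
open Fermat.Agent.DS.Mid.Bound99Density

local notation "Γℚ" => (AlgebraicClosure ℚ ≃ₐ[ℚ] AlgebraicClosure ℚ)
local notation "ℤbar" => integralClosure ℤ ℂ

section matrices

variable {k : Type} [Field k]

/-- Trace of the inverse of an invertible `2 × 2` matrix. -/
theorem det_mul_trace_inv (g : GL (Fin 2) k) :
    (g : Matrix (Fin 2) (Fin 2) k).det * ((g⁻¹ : GL (Fin 2) k) : Matrix (Fin 2) (Fin 2) k).trace =
      (g : Matrix (Fin 2) (Fin 2) k).trace := by
  set n : Matrix (Fin 2) (Fin 2) k := (g : Matrix (Fin 2) (Fin 2) k) with hn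
  set n' : Matrix (Fin 2) (Fin 2) k := ((g⁻¹ : GL (Fin 2) k) : Matrix (Fin 2) (Fin 2) k) with hn'
  have h1 : n * n' = 1 := by rw [hn, hn', ← Units.val_mul, mul_inv_cancel, Units.val_one]
  have h2 : n * n = n.trace • n - n.det • (1 : Matrix (Fin 2) (Fin 2) k) := mul_self_eq n
  have h3 : n = n.trace • (1 : Matrix (Fin 2) (Fin 2) k) - n.det • n' := by
    have := congrArg (fun m => m * n') h2
    simp only [Matrix.mul_assoc, h1, Matrix.mul_one, Matrix.sub_mul, Matrix.smul_mul,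
      Matrix.one_mul] at this
    exact this
  have h4 := congrArg Matrix.trace h3
  rw [Matrix.trace_sub, Matrix.trace_smul, Matrix.trace_smul, Matrix.trace_one,
    Fintype.card_fin, smul_eq_mul, smul_eq_mul] at h4
  push_cast at h4
  linear_combination h4

theorem det_mul_det_inv (g : GL (Fin 2) k) :
    (g : Matrix (Fin 2) (Fin 2) k).det * ((g⁻¹ : GL (Fin 2) k) : Matrix (Fin 2) (Fin 2) k).det =
      1 := by
  rw [← Matrix.det_mul, ← Units.val_mul, mul_inv_cancel, Units.val_one, Matrix.det_one]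

theorem det_ne_zero (g : GL (Fin 2) k) : (g : Matrix (Fin 2) (Fin 2) k).det ≠ 0 := by
  intro h
  have := det_mul_det_inv g
  rw [h, zero_mul] at this
  exact zero_ne_one this

/-- The characteristic polynomial of `g`, from trace and determinant of `g⁻¹`. -/
theorem charpoly_of_inv (g : GL (Fin 2) k) {t d : k}
    (ht : ((g⁻¹ : GL (Fin 2) k) : Matrix (Fin 2) (Fin 2) k).trace = t)
    (hd : ((g⁻¹ : GL (Fin 2) k) : Matrix (Fin 2) (Fin 2) k).det = d) :
    (g : Matrix (Fin 2) (Fin 2) k).charpoly = X ^ 2 - C (t / d) * X + C d⁻¹ := by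
  have h1 := det_mul_trace_inv g⁻¹
  have h2 := det_mul_det_inv g⁻¹
  rw [inv_inv] at h1 h2
  rw [ht, hd] at h1
  rw [hd] at h2
  have hd0 : d ≠ 0 := by
    intro h
    rw [h, zero_mul] at h2
    exact zero_ne_one h2
  rw [Matrix.charpoly_fin_two]
  have e1 : (g : Matrix (Fin 2) (Fin 2) k).trace = t / d := by
    rw [eq_div_iff hd0, mul_comm]
    exact h1
  have e2 : (g : Matrix (Fin 2) (Fin 2) k).det = d⁻¹ := by
    exact eq_inv_of_mul_eq_one_right h2
  rw [e1, e2]

theorem charpoly_of_trace_det (g : GL (Fin 2) k) {t d : k}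
    (ht : (g : Matrix (Fin 2) (Fin 2) k).trace = t)
    (hd : (g : Matrix (Fin 2) (Fin 2) k).det = d) :
    (g : Matrix (Fin 2) (Fin 2) k).charpoly = X ^ 2 - C t * X + C d := by
  rw [Matrix.charpoly_fin_two, ht, hd]

end matrices

/-! ### `IsModRep` and semisimplification -/

/-- `IsModRep` only depends on the characteristic polynomials and on the kernel. -/
theorem isModRep_of_charpoly_eq {k : Type} [Field k] {φ : ℤbar →+* k} {a e : ℕ → ℤbar} {S : ℕ}
    {r r' : Γℚ →* GL (Fin 2) k} (hr : IsModRep φ a e S r)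
    (hcp : ∀ σ, ((r' σ : GL (Fin 2) k) : Matrix (Fin 2) (Fin 2) k).charpoly =
      ((r σ : GL (Fin 2) k) : Matrix (Fin 2) (Fin 2) k).charpoly)
    (hf : FactorsThrough r r') : IsModRep φ a e S r' where
  finiteLevel := hf.finiteLevel hr.finiteLevel
  unram p hp hpS := hf.unramAt (hr.unram p hp hpS)
  frob p hp hpS σ hσ := by
    obtain ⟨h1, h2⟩ := hr.frob p hp hpS σ hσ
    constructor
    · rw [trace_eq_neg_coeff, hcp σ, ← trace_eq_neg_coeff, h1]
    · rw [det_eq_coeff, hcp σ, ← det_eq_coeff, h2]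

/-- Every mod-`φ` representation attached to `(a, e)` can be replaced by a semisimple one. -/
theorem exists_semisimple {k : Type} [Field k] {φ : ℤbar →+* k} {a e : ℕ → ℤbar} {S : ℕ}
    {r : Γℚ →* GL (Fin 2) k} (hr : IsModRep φ a e S r) :
    ∃ r' : Γℚ →* GL (Fin 2) k, IsModRep φ a e S r' ∧ IsSemisimpleSubgroup r'.range ∧
      FactorsThrough r r' := by
  obtain ⟨r', h1, -, h3, h4⟩ := Fermat.Agent.DS.GL2.SS.exists_semisimplification' r
  exact ⟨r', isModRep_of_charpoly_eq hr h1 h3, h4, h3⟩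

/-! ### Lemma 8.2 -/

section lemma82

variable {k : Type} [Field k]

/-- The possible characteristic polynomials of Frobenius images and of their inverses. -/
noncomputable def polySet (φ : ℤbar →+* k) (Ya Ye : Finset ℤbar) : Finset k[X] := by
  classical
  exact (Ya ×ˢ Ye).image (fun y => X ^ 2 - C (φ y.1) * X + C (φ y.2)) ∪
    (Ya ×ˢ Ye).image (fun y => X ^ 2 - C (φ y.1 / φ y.2) * X + C (φ y.2)⁻¹)

theorem card_polySet_le (φ : ℤbar →+* k) (Ya Ye : Finset ℤbar) :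
    (polySet φ Ya Ye).card ≤ 2 * (Ya.card * Ye.card) := by
  classical
  unfold polySet
  refine (Finset.card_union_le _ _).trans ?_
  have h1 := Finset.card_image_le (s := Ya ×ˢ Ye)
    (f := fun y => (X ^ 2 - C (φ y.1) * X + C (φ y.2) : k[X]))
  have h2 := Finset.card_image_le (s := Ya ×ˢ Ye)
    (f := fun y => (X ^ 2 - C (φ y.1 / φ y.2) * X + C (φ y.2)⁻¹ : k[X]))
  rw [Finset.card_product] at h1 h2
  omega

theorem mem_polySet_left (φ : ℤbar →+* k) {Ya Ye : Finset ℤbar} {x y : ℤbar} (hx : x ∈ Ya)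
    (hy : y ∈ Ye) : (X ^ 2 - C (φ x) * X + C (φ y) : k[X]) ∈ polySet φ Ya Ye := by
  classical
  unfold polySet
  exact Finset.mem_union_left _
    (Finset.mem_image.mpr ⟨(x, y), Finset.mem_product.mpr ⟨hx, hy⟩, rfl⟩)

theorem mem_polySet_right (φ : ℤbar →+* k) {Ya Ye : Finset ℤbar} {x y : ℤbar} (hx : x ∈ Ya)
    (hy : y ∈ Ye) : (X ^ 2 - C (φ x / φ y) * X + C (φ y)⁻¹ : k[X]) ∈ polySet φ Ya Ye := by
  classical
  unfold polySet
  exact Finset.mem_union_right _
    (Finset.mem_image.mpr ⟨(x, y), Finset.mem_product.mpr ⟨hx, hy⟩, rfl⟩)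

/-- **Deligne–Serre, Lemma 8.2.** -/
theorem fewCharpolys (hCheb : ChebotarevLowerSym) (a e : ℕ → ℤbar) (N : ℕ) [NeZero N]
    (Ya Ye : Finset ℤbar) (η : ℝ)
    (hYa : UpperDensityLE {p : ℕ | ¬ p ∣ N ∧ a p ∉ Ya} η)
    (hYe : ∀ p : ℕ, p.Prime → ¬ p ∣ N → e p ∈ Ye)
    (ℓ : ℕ) (hℓ : ℓ ≠ 0) (φ : ℤbar →+* k) (r : Γℚ →* GL (Fin 2) k)
    (hr : IsModRep φ a e (N * ℓ) r) :
    FewCharpolys r.range η (2 * (Ya.card * Ye.card)) := by
  classical
  -- the image is finite
  have hfin : (Set.range r).Finite :=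
    Fermat.Agent.DS.Asm.FiniteRange.finite_range r hr.finiteLevel
  have : Finite r.range := by
    have : Finite (Set.range r) := hfin.to_subtype
    exact this
  let _ : Fintype r.range := Fintype.ofFinite _
  -- the surjection onto the image
  set ρ : Γℚ →* r.range := r.rangeRestrict with hρ
  have hρval : ∀ σ, ((ρ σ : r.range) : GL (Fin 2) k) = r σ := fun σ => rfl
  have hρsurj : Function.Surjective ρ := r.rangeRestrict_surjective
  have hρfl : GaloisFactorsThroughFiniteLevel ρ := by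
    obtain ⟨L, hL, hker⟩ := hr.finiteLevel
    exact ⟨L, hL, fun σ hσ => Subtype.ext (by rw [hρval, hker σ hσ]; rfl)⟩
  -- Frobenius images at good primes with `a p ∈ Ya`
  set Fr : Set r.range := {g | ∃ (p : ℕ) (σ : Γℚ), p.Prime ∧ ¬ p ∣ N * ℓ ∧ a p ∈ Ya ∧
    IsFrobAt p σ ∧ ρ σ = g} with hFr
  set S : Set r.range := {g | g ∉ Fr ∧ g⁻¹ ∉ Fr} with hS
  have hSinv : ∀ g ∈ S, g⁻¹ ∈ S := by
    intro g hg
    refine ⟨hg.2, ?_⟩
    rw [inv_inv]
    exact hg.1
  have hdens := hCheb r.range ρ hρfl hρsurj S hSinv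
  -- the primes in question are bad or have `a p ∉ Ya`
  have hNℓ : N * ℓ ≠ 0 := Nat.mul_ne_zero (NeZero.ne N) hℓ
  have hsub : ∀ p : ℕ, p.Prime →
      p ∈ {p : ℕ | ∃ (A : ValuationSubring (AlgebraicClosure ℚ)) (σ : Γℚ),
        A.LiesOverPrime p ∧ A.IsFrobeniusAt σ p ∧ ρ σ ∈ S} →
      p ∈ (N * ℓ).primeFactors ∨ p ∈ {p : ℕ | ¬ p ∣ N ∧ a p ∉ Ya} := by
    rintro p hp ⟨A, σ, hA, hσ, hσS⟩
    by_cases hpN : p ∣ N * ℓ
    · exact Or.inl (Nat.mem_primeFactors.mpr ⟨hp, hpN, hNℓ⟩)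
    · refine Or.inr ⟨fun h => hpN (dvd_mul_of_dvd_left h ℓ), fun haY => ?_⟩
      exact hσS.1 ⟨p, σ, hp, hpN, haY, ⟨A, hA, hσ⟩, rfl⟩
  have hle : (Nat.card S : ℝ) / Nat.card r.range ≤ η :=
    le_of_lower_of_upper (N * ℓ).primeFactors hsub hdens hYa
  -- the good subset
  have hGpos : (0 : ℝ) < Nat.card r.range := by exact_mod_cast Nat.card_pos
  set Hc : Finset r.range := Finset.univ.filter (fun g => g ∉ S) with hHc
  set Sf : Finset r.range := Finset.univ.filter (fun g => g ∈ S) with hSf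
  have hcardS : Nat.card S = Sf.card := by
    rw [Nat.card_eq_fintype_card, hSf, ← Fintype.card_subtype]
  have hsum : Sf.card + Hc.card = Nat.card r.range := by
    rw [hSf, hHc, Finset.card_filter_add_card_filter_not, Finset.card_univ,
      Nat.card_eq_fintype_card]
  refine ⟨Hc.map ⟨Subtype.val, Subtype.val_injective⟩, polySet φ Ya Ye, ?_, ?_,
    card_polySet_le φ Ya Ye, ?_⟩
  · intro h hh
    obtain ⟨g, -, rfl⟩ := Finset.mem_map.mp hh
    exact g.2
  · rw [Finset.card_map]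
    have h1 : (Sf.card : ℝ) ≤ η * Nat.card r.range := by
      rw [div_le_iff₀ hGpos, hcardS] at hle
      exact hle
    have h2 : (Sf.card : ℝ) + Hc.card = Nat.card r.range := by exact_mod_cast hsum
    linarith
  · intro h hh
    obtain ⟨g, hg, rfl⟩ := Finset.mem_map.mp hh
    have hgS : g ∉ S := (Finset.mem_filter.mp hg).2
    have hcases : g ∈ Fr ∨ g⁻¹ ∈ Fr := by
      by_contra hno
      rw [not_or] at hno
      exact hgS hno
    show ((g : GL (Fin 2) k) : Matrix (Fin 2) (Fin 2) k).charpoly ∈ polySet φ Ya Ye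
    rcases hcases with ⟨p, σ, hp, hpN, haY, hσ, hσg⟩ | ⟨p, σ, hp, hpN, haY, hσ, hσg⟩
    · obtain ⟨htr, hdet⟩ := hr.frob p hp hpN σ hσ
      have hg' : (g : GL (Fin 2) k) = r σ := by rw [← hσg, hρval]
      rw [hg', charpoly_of_trace_det (r σ) htr hdet]
      exact mem_polySet_left φ haY (hYe p hp fun h => hpN (dvd_mul_of_dvd_left h ℓ))
    · obtain ⟨htr, hdet⟩ := hr.frob p hp hpN σ hσ
      have hg' : ((g : GL (Fin 2) k))⁻¹ = r σ := by
        rw [← hρval σ, hσg]
        rfl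
      rw [← hg'] at htr hdet
      rw [charpoly_of_inv (g : GL (Fin 2) k) htr hdet]
      exact mem_polySet_right φ haY (hYe p hp fun h => hpN (dvd_mul_of_dvd_left h ℓ))

end lemma82

/-! ### Traces in the prime field -/

section primefield

variable {k : Type} [Field k]

/-- In characteristic `ℓ`, a nonzero integer has an integer inverse. -/
theorem exists_int_inv (ℓ : ℕ) (hℓ : ℓ.Prime) [CharP k ℓ] (d : ℤ) (hd : (d : k) ≠ 0) :
    ∃ m : ℤ, (d : k) * (m : k) = 1 := by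
  have hnd : ¬ (ℓ : ℤ) ∣ d := by rwa [← CharP.intCast_eq_zero_iff k ℓ]
  have hcop : IsCoprime (ℓ : ℤ) d :=
    (Prime.coprime_iff_not_dvd (Nat.prime_iff_prime_int.mp hℓ)).mpr hnd
  obtain ⟨u, v, huv⟩ := hcop
  refine ⟨v, ?_⟩
  have h1 := congrArg (fun z : ℤ => (z : k)) huv
  simp only [Int.cast_add, Int.cast_mul, Int.cast_natCast, Int.cast_one] at h1
  rw [CharP.cast_eq_zero k ℓ, mul_zero, zero_add] at h1
  rw [mul_comm]
  exact h1

/-- If the Frobenius traces and determinants lie in the prime field, so do ALL traces of the image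
(every element of the image, or its inverse, is a Frobenius image at a good prime). -/
theorem exists_int_trace (hCheb : ChebotarevLowerSym) (a e : ℕ → ℤbar) (N : ℕ) [NeZero N]
    (ℓ : ℕ) (hℓ : ℓ.Prime) [CharP k ℓ] (φ : ℤbar →+* k) (r : Γℚ →* GL (Fin 2) k)
    (hr : IsModRep φ a e (N * ℓ) r)
    (hint : ∀ p : ℕ, p.Prime → ¬ p ∣ N * ℓ →
      (∃ t : ℤ, φ (a p) = (t : k)) ∧ ∃ d : ℤ, φ (e p) = (d : k)) :
    ∀ w ∈ r.range, ∃ t : ℤ, (w : Matrix (Fin 2) (Fin 2) k).trace = (t : k) := by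
  classical
  rintro w ⟨τ, rfl⟩
  have hfin : (Set.range r).Finite :=
    Fermat.Agent.DS.Asm.FiniteRange.finite_range r hr.finiteLevel
  have : Finite r.range := by
    have : Finite (Set.range r) := hfin.to_subtype
    exact this
  set ρ : Γℚ →* r.range := r.rangeRestrict with hρ
  have hρval : ∀ σ, ((ρ σ : r.range) : GL (Fin 2) k) = r σ := fun σ => rfl
  have hρsurj : Function.Surjective ρ := r.rangeRestrict_surjective
  have hρfl : GaloisFactorsThroughFiniteLevel ρ := by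
    obtain ⟨L, hL, hker⟩ := hr.finiteLevel
    exact ⟨L, hL, fun σ hσ => Subtype.ext (by rw [hρval, hker σ hσ]; rfl)⟩
  set S : Set r.range := {ρ τ, (ρ τ)⁻¹} with hS
  have hSinv : ∀ g ∈ S, g⁻¹ ∈ S := by
    rintro g (rfl | rfl)
    · exact Or.inr rfl
    · left
      rw [inv_inv]
  have hdens := hCheb r.range ρ hρfl hρsurj S hSinv
  have hpos : (0 : ℝ) < (Nat.card S : ℝ) / Nat.card r.range := by
    have h1 : 0 < Nat.card S := by
      have : Nonempty S := ⟨⟨ρ τ, Or.inl rfl⟩⟩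
      have : Finite S := Finite.of_injective (fun x : S => (x : r.range)) Subtype.val_injective
      exact Nat.card_pos
    have h2 : 0 < Nat.card r.range := Nat.card_pos
    positivity
  have hNℓ : N * ℓ ≠ 0 := Nat.mul_ne_zero (NeZero.ne N) hℓ.ne_zero
  obtain ⟨p, hp, ⟨A, σ, hA, hσ, hσS⟩, hpT⟩ :=
    exists_prime_notMem_of_lower hpos hdens (N * ℓ).primeFactors
  have hpN : ¬ p ∣ N * ℓ := fun h => hpT (Nat.mem_primeFactors.mpr ⟨hp, h, hNℓ⟩)
  obtain ⟨htr, hdet⟩ := hr.frob p hp hpN σ ⟨A, hA, hσ⟩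
  obtain ⟨⟨t, ht⟩, ⟨d, hd⟩⟩ := hint p hp hpN
  rcases hσS with h | h
  · -- `r σ = r τ`
    have h1 : r σ = r τ := by rw [← hρval σ, h, hρval]
    exact ⟨t, by rw [← h1, htr, ht]⟩
  · -- `r σ = (r τ)⁻¹`
    have h1 : r σ = (r τ)⁻¹ := by
      rw [← hρval σ, h]
      rfl
    have h2 := det_mul_trace_inv (r τ)⁻¹
    rw [inv_inv, ← h1, htr, hdet, ht, hd] at h2
    have hd0 : (d : k) ≠ 0 := by
      rw [← hd, ← hdet]
      exact det_ne_zero _
    obtain ⟨m, hm⟩ := exists_int_inv ℓ hℓ d hd0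
    refine ⟨m * t, ?_⟩
    push_cast
    calc ((r τ : GL (Fin 2) k) : Matrix (Fin 2) (Fin 2) k).trace
        = ((d : k) * (m : k)) * ((r τ : GL (Fin 2) k) : Matrix (Fin 2) (Fin 2) k).trace := by
          rw [hm, one_mul]
      _ = (m : k) * ((d : k) * ((r τ : GL (Fin 2) k) : Matrix (Fin 2) (Fin 2) k).trace) := by ring
      _ = (m : k) * (t : k) := by rw [h2]

end primefield

/-! ### The uniform bound (D–S (8.3)) -/

/-- **The uniform bound.**  The images of all semisimple mod-`φ` representations attached to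
`(a, e)` with traces in the prime field have at most `A` elements, `A` independent of `ℓ`, `k`,
`φ`, `r`. -/
theorem exists_card_bound (hCheb : ChebotarevLowerSym) (a e : ℕ → ℤbar) (N : ℕ) [NeZero N]
    (Ya Ye : Finset ℤbar) (η : ℝ) (hη : η < 1 / 60)
    (hYa : UpperDensityLE {p : ℕ | ¬ p ∣ N ∧ a p ∉ Ya} η)
    (hYe : ∀ p : ℕ, p.Prime → ¬ p ∣ N → e p ∈ Ye) :
    ∃ A : ℕ, ∀ (ℓ : ℕ) (_ : ℓ.Prime) (k : Type) [Field k] [CharP k ℓ] (φ : ℤbar →+* k)
      (r : Γℚ →* GL (Fin 2) k), IsModRep φ a e (N * ℓ) r → IsSemisimpleSubgroup r.range →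
      (∀ w ∈ r.range, ∃ t : ℤ, (w : Matrix (Fin 2) (Fin 2) k).trace = (t : k)) →
      Finite r.range ∧ Nat.card r.range ≤ A := by
  obtain ⟨A, hA⟩ := card_le_of_fewCharpolys.{0} η hη (2 * (Ya.card * Ye.card))
  refine ⟨A, fun ℓ hℓ k _ _ φ r hr hss htr => ?_⟩
  have hfin : (Set.range r).Finite :=
    Fermat.Agent.DS.Asm.FiniteRange.finite_range r hr.finiteLevel
  have hF : Finite r.range := by
    have : Finite (Set.range r) := hfin.to_subtype
    exact this
  have : Fact ℓ.Prime := ⟨hℓ⟩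
  exact ⟨hF, hA ℓ k r.range htr hss
    (fewCharpolys hCheb a e N Ya Ye η hYa hYe ℓ hℓ.ne_zero φ r hr)⟩

/-- The same with the prime-field hypothesis on the Frobenius data only. -/
theorem exists_card_bound' (hCheb : ChebotarevLowerSym) (a e : ℕ → ℤbar) (N : ℕ) [NeZero N]
    (Ya Ye : Finset ℤbar) (η : ℝ) (hη : η < 1 / 60)
    (hYa : UpperDensityLE {p : ℕ | ¬ p ∣ N ∧ a p ∉ Ya} η)
    (hYe : ∀ p : ℕ, p.Prime → ¬ p ∣ N → e p ∈ Ye) :
    ∃ A : ℕ, ∀ (ℓ : ℕ) (_ : ℓ.Prime) (k : Type) [Field k] [CharP k ℓ] (φ : ℤbar →+* k)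
      (r : Γℚ →* GL (Fin 2) k), IsModRep φ a e (N * ℓ) r → IsSemisimpleSubgroup r.range →
      (∀ p : ℕ, p.Prime → ¬ p ∣ N * ℓ →
        (∃ t : ℤ, φ (a p) = (t : k)) ∧ ∃ d : ℤ, φ (e p) = (d : k)) →
      Finite r.range ∧ Nat.card r.range ≤ A := by
  obtain ⟨A, hA⟩ := exists_card_bound hCheb a e N Ya Ye η hη hYa hYe
  exact ⟨A, fun ℓ hℓ k _ _ φ r hr hss hint =>
    hA ℓ hℓ k φ r hr hss (exists_int_trace hCheb a e N ℓ hℓ φ r hr hint)⟩

/-- A common exponent for all the images. -/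
theorem exists_exponent (hCheb : ChebotarevLowerSym) (a e : ℕ → ℤbar) (N : ℕ) [NeZero N]
    (Ya Ye : Finset ℤbar) (η : ℝ) (hη : η < 1 / 60)
    (hYa : UpperDensityLE {p : ℕ | ¬ p ∣ N ∧ a p ∉ Ya} η)
    (hYe : ∀ p : ℕ, p.Prime → ¬ p ∣ N → e p ∈ Ye) :
    ∃ D : ℕ, 0 < D ∧ ∀ (ℓ : ℕ) (_ : ℓ.Prime) (k : Type) [Field k] [CharP k ℓ] (φ : ℤbar →+* k)
      (r : Γℚ →* GL (Fin 2) k), IsModRep φ a e (N * ℓ) r → IsSemisimpleSubgroup r.range →
      (∀ w ∈ r.range, ∃ t : ℤ, (w : Matrix (Fin 2) (Fin 2) k).trace = (t : k)) →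
      Nat.card r.range ∣ D ∧ ∀ σ, (r σ) ^ D = 1 := by
  obtain ⟨A, hA⟩ := exists_card_bound hCheb a e N Ya Ye η hη hYa hYe
  refine ⟨A.factorial, Nat.factorial_pos A, fun ℓ hℓ k _ _ φ r hr hss htr => ?_⟩
  obtain ⟨hF, hle⟩ := hA ℓ hℓ k φ r hr hss htr
  have hdvd : Nat.card r.range ∣ A.factorial := Nat.dvd_factorial Nat.card_pos hle
  refine ⟨hdvd, fun σ => ?_⟩
  obtain ⟨c, hc⟩ := hdvd
  have h1 : (⟨r σ, σ, rfl⟩ : r.range) ^ Nat.card r.range = 1 := pow_card_eq_one'
  have h2 : (r σ) ^ Nat.card r.range = 1 := by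
    have := congrArg (fun g : r.range => (g : GL (Fin 2) k)) h1
    simpa using this
  rw [hc, pow_mul, h2, one_pow]

end Fermat.Agent.DS.Mid.Bound99
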