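/-
Programme DS (S48), generic half, step (P5) = B6: INDEPENDENCE OF `l` (helper51).

If `ρ`, `ρ'` are finite-image complex representations attached to the same eigen-system `(a, e)`
away from `N l` resp. `N l'` (`l ≠ l'` primes), then by the symmetric Chebotarev density theorem
`ρ s` and `ρ' s` have the same trace and determinant for every `s`; hence the same kernel; hence
`ρ` is unramified at `l` with the right Frobenius trace and determinant: `ρ` is attached to
`(a, e)` away from `N` (`cxRep_of_two`).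

Also: a set of positive lower Dirichlet density contains arbitrarily large primes
(`exists_prime_gt_of_lowerDensityGE`).
-/
import Mathlib
import Fermat.Agent.DS.Mid.Defs
import Fermat.Agent.DS.IfaceSym
import Fermat.Agent.DS.Lift.Kernel

set_option autoImplicit false

open Filter Topology

namespace Fermat.Agent.DS.Mid.TwoPrimes51

open Fermat.Agent.DS.Iface Fermat.Agent.DS.IfaceSym Fermat.Agent.DS.Mid

local notation "Γℚ" => (AlgebraicClosure ℚ ≃ₐ[ℚ] AlgebraicClosure ℚ)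
local notation "ℤbar" => integralClosure ℤ ℂ

/-! ### Positive lower density gives large primes -/

/-- The prime sum of a set whose primes are all `≤ n` is at most `n + 1`. -/
theorem primeSum_le_of_bounded (X : Set ℕ) (n : ℕ) (h : ∀ p ∈ X, p.Prime → p ≤ n) {s : ℝ}
    (hs : 0 ≤ s) : primeSum X s ≤ (n : ℝ) + 1 := by
  classical
  unfold primeSum
  have hsupp : ∀ k ∉ Finset.range (n + 1),
      Set.indicator {p : ℕ | p.Prime ∧ p ∈ X} (fun p : ℕ => (p : ℝ) ^ (-s)) k = 0 := by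
    intro k hk
    rw [Set.indicator_of_notMem]
    rintro ⟨hkp, hkX⟩
    exact hk (Finset.mem_range.mpr (Nat.lt_succ_of_le (h k hkX hkp)))
  rw [tsum_eq_sum hsupp]
  calc ∑ k ∈ Finset.range (n + 1),
        Set.indicator {p : ℕ | p.Prime ∧ p ∈ X} (fun p : ℕ => (p : ℝ) ^ (-s)) k
      ≤ ∑ _k ∈ Finset.range (n + 1), (1 : ℝ) := by
        refine Finset.sum_le_sum fun k _ => ?_
        by_cases hk : k ∈ {p : ℕ | p.Prime ∧ p ∈ X}
        · rw [Set.indicator_of_mem hk]
          have hk1 : (1 : ℝ) ≤ (k : ℝ) := by exact_mod_cast hk.1.one_le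
          exact Real.rpow_le_one_of_one_le_of_nonpos hk1 (by linarith)
        · rw [Set.indicator_of_notMem hk]
          exact zero_le_one
    _ = (n : ℝ) + 1 := by
        rw [Finset.sum_const, Finset.card_range, nsmul_eq_mul, mul_one]
        push_cast
        ring

/-- `log (1 / (s - 1))` is eventually large as `s → 1⁺`. -/
theorem eventually_lt_log (K : ℝ) : ∀ᶠ s in 𝓝[>] (1 : ℝ), K < Real.log (1 / (s - 1)) := by
  have hpos : (0 : ℝ) < Real.exp (-K) := Real.exp_pos _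
  have hmem : Set.Ioo (1 : ℝ) (1 + Real.exp (-K)) ∈ 𝓝[>] (1 : ℝ) :=
    Ioo_mem_nhdsGT (by linarith)
  filter_upwards [hmem] with s hs
  have h1 : 0 < s - 1 := by linarith [hs.1]
  have h2 : s - 1 < Real.exp (-K) := by linarith [hs.2]
  rw [one_div, Real.log_inv, lt_neg]
  calc Real.log (s - 1) < Real.log (Real.exp (-K)) := Real.log_lt_log h1 h2
    _ = -K := Real.log_exp _

/-- A set of positive lower Dirichlet density contains arbitrarily large primes. -/
theorem exists_prime_gt_of_lowerDensityGE {X : Set ℕ} {c : ℝ} (hc : 0 < c)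
    (h : LowerDensityGE X c) (n : ℕ) : ∃ p ∈ X, p.Prime ∧ n < p := by
  by_contra hcon
  push Not at hcon
  have hb : ∀ p ∈ X, p.Prime → p ≤ n := fun p hp hpp => hcon p hp hpp
  have h1 := h (c / 2) (by positivity)
  have h2 := eventually_lt_log (((n : ℝ) + 1) / (c / 2))
  have h3 : ∀ᶠ s in 𝓝[>] (1 : ℝ), (0 : ℝ) ≤ s := by
    filter_upwards [self_mem_nhdsWithin] with s hs
    exact le_of_lt (lt_trans zero_lt_one hs)
  obtain ⟨s, hs1, hs2, hs3⟩ := (h1.and (h2.and h3)).exists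
  have h4 := primeSum_le_of_bounded X n hb hs3
  have h5 : c - c / 2 = c / 2 := by ring
  rw [h5] at hs1
  have h6 : (n : ℝ) + 1 < c / 2 * Real.log (1 / (s - 1)) := by
    rw [div_lt_iff₀ (by positivity)] at hs2
    linarith
  linarith

/-! ### `2 × 2` matrices: trace and determinant of the inverse -/

section Mat

variable {k : Type*} [Field k]

theorem trace_inv_fin_two (M : GL (Fin 2) k) :
    ((M⁻¹ : GL (Fin 2) k) : Matrix (Fin 2) (Fin 2) k).trace =
      ((M : Matrix (Fin 2) (Fin 2) k).det)⁻¹ * (M : Matrix (Fin 2) (Fin 2) k).trace := by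
  rw [Matrix.coe_units_inv, Matrix.inv_def, Ring.inverse_eq_inv', Matrix.trace_smul,
    Matrix.adjugate_fin_two, Matrix.trace_fin_two, Matrix.trace_fin_two, smul_eq_mul]
  simp only [Matrix.of_apply, Matrix.cons_val', Matrix.cons_val_zero, Matrix.cons_val_one,
    Matrix.cons_val_fin_one]
  ring

theorem det_inv_fin_two (M : GL (Fin 2) k) :
    ((M⁻¹ : GL (Fin 2) k) : Matrix (Fin 2) (Fin 2) k).det =
      ((M : Matrix (Fin 2) (Fin 2) k).det)⁻¹ := by
  rw [Matrix.coe_units_inv, Matrix.det_nonsing_inv, Ring.inverse_eq_inv']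

/-- Trace and determinant of `M` in terms of those of `M⁻¹`. -/
theorem trace_det_eq_of_inv {M M' : GL (Fin 2) k}
    (ht : ((M⁻¹ : GL (Fin 2) k) : Matrix (Fin 2) (Fin 2) k).trace =
      ((M'⁻¹ : GL (Fin 2) k) : Matrix (Fin 2) (Fin 2) k).trace)
    (hd : ((M⁻¹ : GL (Fin 2) k) : Matrix (Fin 2) (Fin 2) k).det =
      ((M'⁻¹ : GL (Fin 2) k) : Matrix (Fin 2) (Fin 2) k).det) :
    (M : Matrix (Fin 2) (Fin 2) k).trace = (M' : Matrix (Fin 2) (Fin 2) k).trace ∧
      (M : Matrix (Fin 2) (Fin 2) k).det = (M' : Matrix (Fin 2) (Fin 2) k).det := by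
  have h1 := trace_inv_fin_two (M⁻¹)
  have h2 := trace_inv_fin_two (M'⁻¹)
  have h3 := det_inv_fin_two (M⁻¹)
  have h4 := det_inv_fin_two (M'⁻¹)
  rw [inv_inv] at h1 h2 h3 h4
  constructor
  · rw [h1, h2, ht, hd]
  · rw [h3, h4, hd]

end Mat

/-! ### The product representation -/

section Two

variable {a e : ℕ → ℤbar}

/-- The product of two finite-level homomorphisms has finite level. -/
theorem finiteLevel_prod {M M' : Type} [Group M] [Group M'] {ρ : Γℚ →* M} {ρ' : Γℚ →* M'}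
    (h : GaloisFactorsThroughFiniteLevel ρ) (h' : GaloisFactorsThroughFiniteLevel ρ') :
    GaloisFactorsThroughFiniteLevel (ρ.prod ρ').rangeRestrict := by
  obtain ⟨L, hL, hker⟩ := h
  obtain ⟨L', hL', hker'⟩ := h'
  refine ⟨L ⊔ L', inferInstance, fun σ hσ => ?_⟩
  have h1 : ρ σ = 1 := hker σ fun x hx => hσ x ((le_sup_left : L ≤ L ⊔ L') hx)
  have h2 : ρ' σ = 1 := hker' σ fun x hx => hσ x ((le_sup_right : L' ≤ L ⊔ L') hx)
  apply Subtype.ext
  change (ρ.prod ρ') σ = 1
  rw [MonoidHom.prod_apply, h1, h2]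
  rfl

theorem finite_range_prod {M M' : Type} [Group M] [Group M'] (ρ : Γℚ →* M) (ρ' : Γℚ →* M')
    [Finite ρ.range] [Finite ρ'.range] : Finite (ρ.prod ρ').range := by
  let f : (ρ.prod ρ').range → ρ.range × ρ'.range := fun x =>
    (⟨x.1.1, by obtain ⟨σ, hσ⟩ := x.2; exact ⟨σ, by rw [← hσ]; rfl⟩⟩,
      ⟨x.1.2, by obtain ⟨σ, hσ⟩ := x.2; exact ⟨σ, by rw [← hσ]; rfl⟩⟩)
  refine Finite.of_injective f fun x y hxy => ?_
  have h1 : x.1.1 = y.1.1 := congrArg (fun z : ρ.range × ρ'.range => (z.1 : M)) hxy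
  have h2 : x.1.2 = y.1.2 := congrArg (fun z : ρ.range × ρ'.range => (z.2 : M')) hxy
  exact Subtype.ext (Prod.ext h1 h2)

/-- **Chebotarev comparison.**  Two finite-image complex representations attached to the same
eigen-system away from `S` resp. `S'` have the same traces and determinants everywhere. -/
theorem trace_det_eq_of_isCxRep (hCheb : ChebotarevLowerSym) {S S' : ℕ}
    (ρ ρ' : Γℚ →* GL (Fin 2) ℂ) (h : IsCxRep a e S ρ) (h' : IsCxRep a e S' ρ')
    (hS : S ≠ 0) (hS' : S' ≠ 0)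
    [Finite ρ.range] [Finite ρ'.range] (s : Γℚ) :
    ((ρ s : GL (Fin 2) ℂ) : Matrix (Fin 2) (Fin 2) ℂ).trace =
        ((ρ' s : GL (Fin 2) ℂ) : Matrix (Fin 2) (Fin 2) ℂ).trace ∧
      ((ρ s : GL (Fin 2) ℂ) : Matrix (Fin 2) (Fin 2) ℂ).det =
        ((ρ' s : GL (Fin 2) ℂ) : Matrix (Fin 2) (Fin 2) ℂ).det := by
  classical
  have hfin : Finite (ρ.prod ρ').range := finite_range_prod ρ ρ'
  set P : Γℚ →* (ρ.prod ρ').range := (ρ.prod ρ').rangeRestrict with hP
  have hfl := finiteLevel_prod h.finiteLevel h'.finiteLevel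
  have hsurj : Function.Surjective P := (ρ.prod ρ').rangeRestrict_surjective
  set g := P s with hg
  set T : Set (ρ.prod ρ').range := {g, g⁻¹} with hT
  have hTinv : ∀ x ∈ T, x⁻¹ ∈ T := by
    rintro x (rfl | hx)
    · exact Or.inr rfl
    · rw [Set.mem_singleton_iff] at hx
      rw [hx, inv_inv]
      exact Or.inl rfl
  have hdens := hCheb _ P hfl hsurj T hTinv
  have hTne : T.Nonempty := ⟨g, Or.inl rfl⟩
  have hcardT : 0 < Nat.card T := by
    have : Nonempty T := hTne.to_subtype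
    exact Nat.card_pos
  have hc : (0 : ℝ) < (Nat.card T : ℝ) / Nat.card (ρ.prod ρ').range := by
    have : 0 < Nat.card (ρ.prod ρ').range := Nat.card_pos
    positivity
  obtain ⟨p, ⟨A, σ, hA, hσ, hσT⟩, hpp, hpgt⟩ :=
    exists_prime_gt_of_lowerDensityGE hc hdens (S * S')
  -- `p` does not divide `S` nor `S'`
  have hpS : ¬ p ∣ S := by
    intro hd
    have h1 := Nat.le_of_dvd (Nat.pos_of_ne_zero hS) hd
    have h2 : S ≤ S * S' := Nat.le_mul_of_pos_right S (Nat.pos_of_ne_zero hS')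
    omega
  have hpS' : ¬ p ∣ S' := by
    intro hd
    have h1 := Nat.le_of_dvd (Nat.pos_of_ne_zero hS') hd
    have h2 : S' ≤ S * S' := Nat.le_mul_of_pos_left S' (Nat.pos_of_ne_zero hS)
    omega
  have hfrob : IsFrobAt p σ := ⟨A, hA, hσ⟩
  obtain ⟨ht1, hd1⟩ := h.frob p hpp hpS σ hfrob
  obtain ⟨ht2, hd2⟩ := h'.frob p hpp hpS' σ hfrob
  have hPσ : ∀ τ : Γℚ, ((P τ : (ρ.prod ρ').range) : GL (Fin 2) ℂ × GL (Fin 2) ℂ) = (ρ τ, ρ' τ) :=
    fun τ => rfl
  rcases hσT with hσg | hσg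
  · -- `P σ = P s`
    have h3 := congrArg (fun x : (ρ.prod ρ').range => (x : GL (Fin 2) ℂ × GL (Fin 2) ℂ)) hσg
    simp only [hg, hPσ, Prod.mk.injEq] at h3
    rw [← h3.1, ← h3.2, ht1, ht2, hd1, hd2]
    exact ⟨rfl, rfl⟩
  · -- `P σ = (P s)⁻¹`
    rw [Set.mem_singleton_iff] at hσg
    have h3 := congrArg (fun x : (ρ.prod ρ').range => (x : GL (Fin 2) ℂ × GL (Fin 2) ℂ)) hσg
    simp only [hg, Subgroup.coe_inv, hPσ, Prod.inv_mk, Prod.mk.injEq] at h3
    apply trace_det_eq_of_inv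
    · rw [← h3.1, ← h3.2, ht1, ht2]
    · rw [← h3.1, ← h3.2, hd1, hd2]

/-- Same kernels. -/
theorem eq_one_of_isCxRep (hCheb : ChebotarevLowerSym) {S S' : ℕ}
    (ρ ρ' : Γℚ →* GL (Fin 2) ℂ) (h : IsCxRep a e S ρ) (h' : IsCxRep a e S' ρ')
    (hS : S ≠ 0) (hS' : S' ≠ 0)
    [Finite ρ.range] [Finite ρ'.range] (s : Γℚ) (hs : ρ' s = 1) : ρ s = 1 := by
  have hm : ((Nat.card ρ.range : ℕ) : ℂ) ≠ 0 := by
    have : 0 < Nat.card ρ.range := Nat.card_pos
    exact_mod_cast this.ne'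
  refine Fermat.Agent.DS.Lift.Kernel.eq_one_of_charpoly_eq ρ' ρ (Nat.card ρ.range) hm
    (fun γ => ?_) (fun γ => ?_) s hs
  · have h1 : (⟨ρ γ, γ, rfl⟩ : ρ.range) ^ Nat.card ρ.range = 1 := pow_card_eq_one'
    exact congrArg (fun x : ρ.range => (x : GL (Fin 2) ℂ)) h1
  · obtain ⟨ht, hd⟩ := trace_det_eq_of_isCxRep hCheb ρ ρ' h h' hS hS' γ
    rw [Matrix.charpoly_fin_two, Matrix.charpoly_fin_two, ht, hd]

/-- **Independence of `l`** (D–S §8, end of the proof): a finite-image complex representation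
attached to `(a, e)` away from `N l`, for which there is another one away from `N l'`
(`l ≠ l'` primes not dividing `N`), is attached to `(a, e)` away from `N`. -/
theorem cxRep_of_two (a e : ℕ → ℤbar) (N l l' : ℕ) (hl : l.Prime) (hl' : l'.Prime)
    (hne : l ≠ l') (hlN : ¬ l ∣ N) (ρ ρ' : Γℚ →* GL (Fin 2) ℂ)
    (h : IsCxRep a e (N * l) ρ) (h' : IsCxRep a e (N * l') ρ')
    (hfin : Finite ρ.range) (hfin' : Finite ρ'.range) (hCheb : ChebotarevLowerSym) :
    IsCxRep a e N ρ := by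
  have hN : N ≠ 0 := fun h0 => hlN (h0 ▸ dvd_zero l)
  have hS : N * l ≠ 0 := Nat.mul_ne_zero hN hl.ne_zero
  have hS' : N * l' ≠ 0 := Nat.mul_ne_zero hN hl'.ne_zero
  -- `l` does not divide `N l'`
  have hlS' : ¬ l ∣ N * l' := by
    intro hd
    rcases (Nat.Prime.dvd_mul hl).mp hd with h1 | h1
    · exact hlN h1
    · exact hne ((Nat.prime_dvd_prime_iff_eq hl hl').mp h1)
  -- a prime not dividing `N` but dividing `N l` is `l`
  have hcase : ∀ p : ℕ, p.Prime → ¬ p ∣ N → p ∣ N * l → p = l := by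
    intro p hp hpN hd
    rcases (Nat.Prime.dvd_mul hp).mp hd with h1 | h1
    · exact absurd h1 hpN
    · exact (Nat.prime_dvd_prime_iff_eq hp hl).mp h1
  refine ⟨h.finiteLevel, fun p hp hpN => ?_, fun p hp hpN σ hσ => ?_⟩
  · by_cases hd : p ∣ N * l
    · have hpl := hcase p hp hpN hd
      subst hpl
      intro A hA σ hσ
      exact eq_one_of_isCxRep hCheb ρ ρ' h h' hS hS' σ (h'.unram p hp hlS' A hA σ hσ)
    · exact h.unram p hp hd
  · by_cases hd : p ∣ N * l
    · have hpl := hcase p hp hpN hd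
      subst hpl
      obtain ⟨ht, hdt⟩ := trace_det_eq_of_isCxRep hCheb ρ ρ' h h' hS hS' σ
      obtain ⟨ht', hdt'⟩ := h'.frob p hp hlS' σ hσ
      exact ⟨ht.trans ht', hdt.trans hdt'⟩
    · exact h.frob p hp hd σ hσ

end Two

end Fermat.Agent.DS.Mid.TwoPrimes51
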